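import Fermat.Agent.S36.Norm.KForm.AuxLevel
import Fermat.Agent.Crux.Main

/-!
# S36 / Top / Final : the frozen statement S36 from the ONE remaining input

`KeyK`: for every prime `l`, every `N` prime to `l` with `4 ∣ N` (`l ≠ 2`) resp. `9 ∣ N` (`l = 2`) and every prime `p ≠ l` there are
a place `A` of `Qbar` over `l` and a constant `c ≠ 0` such that `NoInvK (L0 A) (N l) (N l l) l _ _ (p ^ n) c` for all `n`.
-/

set_option autoImplicit false

open Polynomial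
open CuspForm CuspForm.IsNewform

namespace Fermat.Agent.S36.Top

open Fermat.Agent.ES Fermat.Agent.S36.Norm Fermat.Agent.S36.Norm.KForm Fermat.Agent.S36.Base

/-- the remaining input of S36 (purely over the inertia field `K = L0 A`). -/
def KeyK : Prop :=
  ∀ (N l p : ℕ) [NeZero N] [NeZero l], l.Prime → p.Prime → l ≠ p → ¬ l ∣ N →
    (l ≠ 2 → 4 ∣ N) → (l = 2 → 9 ∣ N) →
    ∃ (A : ValuationSubring Qb) (c : ℕ), A.LiesOverPrime l ∧ c ≠ 0 ∧
      ∀ n : ℕ, NoInvK (L0 A) (N * l) (N * l * l) l (dvdA N l) (dvdB N l) (p ^ n) c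

theorem noInvNm_of_keyK (H : KeyK) (N l p : ℕ) [NeZero N] [NeZero l] (hl : l.Prime) (hp : p.Prime)
    (hlp : l ≠ p) (hlN : ¬ l ∣ N) : NoInvNm N l p :=
  noInvNm_of_aux (fun N l p _ _ hl hp hlp hlN h4 h9 => by
    obtain ⟨A, c, hA, hc, h⟩ := H N l p hl hp hlp hlN h4 h9
    exact noInvNm_of_NoInvK N l p hp A hA c hc h) N l p hl hp hlp hlN

/-- **S36 from `KeyK`.** -/
theorem S36_of_keyK (H : KeyK)
    {M : ℕ} [NeZero M] {g : CuspForm (CongruenceSubgroup.Gamma0 M) 2} (hg : g.IsNewform)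
    (lam : ℕ) [Fact lam.Prime]
    (S : Finset ℕ)
    (O' : Type) [CommRing O'] [IsDomain O'] [IsDiscreteValuationRing O']
    [IsAdicComplete (IsLocalRing.maximalIdeal O') O'] [Finite (IsLocalRing.ResidueField O')]
    [CharZero O'] (hlamO' : (lam : O') ∈ IsLocalRing.maximalIdeal O')
    (chig : CuspForm.heckeAlgebra M 2 (↑S : Set ℕ) →+* ℂ)
    (hchig : ∀ (ℓ : ℕ) (hℓ : ℓ.Prime) (hℓM : ¬ ℓ ∣ M) (hℓS : ℓ ∉ (↑S : Set ℕ)),
      chig (CuspForm.heckeAlgebra.T hℓ hℓM hℓS) = ModularFormClass.qCoeff g ℓ)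
    (iota : chig.range →+* O')
    (hlamS : lam ∈ S) (hMS : ∀ q : ℕ, q.Prime → q ∣ M → q ∈ S) :
    ∃ (O'' : Type) (_ : CommRing O'') (_ : IsDomain O'') (_ : IsDiscreteValuationRing O'')
      (_ : IsAdicComplete (IsLocalRing.maximalIdeal O'') O'') (_ : Finite (IsLocalRing.ResidueField O''))
      (_ : CharZero O'') (_ : Algebra O' O'') (_ : Module.Finite O' O'') (_ : IsLocalHom (algebraMap O' O'')),
      Function.Injective (algebraMap O' O'') ∧
      ∃ ρ : GaloisRepAdic O'',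
        (∀ (ℓ : ℕ) (hℓ : ℓ.Prime) (hℓM : ¬ ℓ ∣ M) (hℓS : ℓ ∉ (↑S : Set ℕ)),
          ∀ A : ValuationSubring (AlgebraicClosure ℚ), A.LiesOverPrime ℓ →
            ∀ σ : AlgebraicClosure ℚ ≃ₐ[ℚ] AlgebraicClosure ℚ, A.IsFrobeniusAt σ ℓ →
              LinearMap.charpoly (ρ.ρ σ) =
                X ^ 2 - C (algebraMap O' O'' ((iota.comp chig.rangeRestrict) (CuspForm.heckeAlgebra.T hℓ hℓM hℓS))) * X
                  + C ((ℓ : O''))) ∧
        (∀ q : ℕ, q.Prime → q ≠ lam → M.factorization q = 2 → ¬ ρ.IsUnipotentOnInertiaAt q) :=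
  S36_of (fun N ℓ m _ h1 h2 h3 => Fermat.Agent.Crux.crux N ℓ m h1 h2 h3)
    (noInv_of_noInvNm (fun N l p _ _ => noInvNm_of_keyK H N l p)) hg lam S O' hlamO' chig hchig iota
    hlamS hMS

end Fermat.Agent.S36.Top
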