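import Fermat.Agent.S36.Top.Main
import Fermat.Agent.S36.Norm.Kum

/-!
# S36 / Top : `NoInv` from the statement about the two norm maps `Kum (N l²) m → Kum (N l) m`
-/

set_option autoImplicit false

namespace Fermat.Agent.S36.Top

open Fermat.Agent.ES Fermat.Agent.S36.Norm

theorem dvdA (N l : ℕ) : 1 * (N * l) ∣ N * l * l := ⟨l, by ring⟩

theorem dvdB (N l : ℕ) : l * (N * l) ∣ N * l * l := ⟨1, by ring⟩

/-- **(NOINV) for the two norm maps** of level `N l² → N l` (`f(q) ↦ f(q)` and `f(q) ↦ f(q^l)`), for ONE place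
`A` over `l` and the exponents `p ^ n`. -/
def NoInvNm (N l p : ℕ) [NeZero N] [NeZero l] : Prop :=
  ∃ (A : ValuationSubring Qb) (c : ℕ), A.LiesOverPrime l ∧ c ≠ 0 ∧
    ∀ (n : ℕ) (x : Kum (N * l * l) (p ^ n)),
      (∀ σ ∈ A.inertiaSubgroupIn ℚ, galKum (N * l * l) (p ^ n) σ x = x) →
      Nm (N * l) (N * l * l) 1 (dvdA N l) (p ^ n) x = 0 →
      Nm (N * l) (N * l * l) l (dvdB N l) (p ^ n) x = 0 → c • x = 0

theorem noInv_of_noInvNm
    (h : ∀ (N l p : ℕ) [NeZero N] [NeZero l], l.Prime → p.Prime → l ≠ p → ¬ l ∣ N → NoInvNm N l p)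
    (M q p : ℕ) [NeZero M] (hq : q.Prime) (hp : p.Prime) (hqp : q ≠ p)
    (hfac : M.factorization q = 2) : NoInv M q p := by
  have hM0 : M ≠ 0 := NeZero.ne M
  obtain ⟨N, hN, hqN⟩ : ∃ N, M = N * q * q ∧ ¬ q ∣ N := by
    refine ⟨M / q ^ M.factorization q, ?_, Nat.not_dvd_ordCompl hq hM0⟩
    have := Nat.ordProj_mul_ordCompl_eq_self M q
    rw [hfac] at this ⊢
    rw [mul_assoc, ← pow_two, mul_comm]
    exact this.symm
  subst hN
  have : NeZero q := ⟨hq.ne_zero⟩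
  have : NeZero N := ⟨fun h0 => hM0 (by rw [h0]; simp)⟩
  obtain ⟨A, c, hA, hc0, hc⟩ := h N q p hq hp hqp hqN
  refine ⟨N * q, inferInstance, Bool,
    fun b n => if b then Nm (N * q) (N * q * q) 1 (dvdA N q) (p ^ n)
      else Nm (N * q) (N * q * q) q (dvdB N q) (p ^ n), A, c, Dvd.intro _ rfl, ?_, hA, hc0, ?_, ?_⟩
  · intro h0
    have h1 : N * q * 1 = N * q * q := by rw [mul_one]; exact h0
    have h2 := Nat.eq_of_mul_eq_mul_left (Nat.pos_of_ne_zero (NeZero.ne (N * q))) h1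
    exact hq.one_lt.ne h2
  · intro b n σ x
    cases b
    · exact (galKum_Nm (N * q) (N * q * q) q (dvdB N q) σ x).symm
    · exact (galKum_Nm (N * q) (N * q * q) 1 (dvdA N q) σ x).symm
  · intro n x hx hD
    exact hc n x hx (hD true) (hD false)

end Fermat.Agent.S36.Top
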