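import Mathlib

/-!
# S36 / Top : flat descent of linear congruences (Mathlib only)

`flat_descent`: let `𝒪` be a flat (= torsion free) `ℤ`-algebra, `𝓕` a set of integral linear forms on
`ℤ^r`, `v ∈ 𝒪^r` with `β(v) ∈ m 𝒪` for all `β ∈ 𝓕`.  Then `v` is an `𝒪`-linear combination of integral
vectors `X` with `β(X) ∈ m ℤ` for all `β ∈ 𝓕`.
-/

set_option autoImplicit false

namespace Fermat.Agent.S36.Top

theorem flat_descent {𝒪 : Type*} [CommRing 𝒪] [Module.Flat ℤ 𝒪] {r : ℕ} (m : ℤ)
    (𝓕 : Set (Fin r → ℤ)) (v : Fin r → 𝒪)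
    (hv : ∀ β ∈ 𝓕, ∃ w : 𝒪, ∑ i, (β i : 𝒪) * v i = (m : 𝒪) * w) :
    ∃ (k : ℕ) (b : Fin k → 𝒪) (X : Fin k → Fin r → ℤ),
      (∀ i, v i = ∑ t, b t * (X t i : 𝒪)) ∧ ∀ t, ∀ β ∈ 𝓕, m ∣ ∑ i, β i * X t i := by
  classical
  -- finitely many generators of the span of `𝓕`
  obtain ⟨s, β, hβ⟩ := Submodule.fg_iff_exists_fin_generating_family.mp
    (IsNoetherian.noetherian (Submodule.span ℤ 𝓕))
  have hspan : ∀ γ ∈ Submodule.span ℤ 𝓕, ∃ w : 𝒪, ∑ i, (γ i : 𝒪) * v i = (m : 𝒪) * w := by
    intro γ hγ
    induction hγ using Submodule.span_induction with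
    | mem x hx => exact hv x hx
    | zero => exact ⟨0, by simp⟩
    | add x y _ _ hx hy =>
      obtain ⟨w, hw⟩ := hx
      obtain ⟨w', hw'⟩ := hy
      refine ⟨w + w', ?_⟩
      rw [mul_add, ← hw, ← hw', ← Finset.sum_add_distrib]
      refine Finset.sum_congr rfl fun i _ => ?_
      rw [Pi.add_apply]
      push_cast
      ring
    | smul a x _ hx =>
      obtain ⟨w, hw⟩ := hx
      refine ⟨a * w, ?_⟩
      rw [mul_left_comm, ← hw, Finset.mul_sum]
      refine Finset.sum_congr rfl fun i _ => ?_
      rw [Pi.smul_apply, smul_eq_mul]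
      push_cast
      ring
  have hβmem : ∀ j, β j ∈ Submodule.span ℤ 𝓕 := fun j => hβ ▸ Submodule.subset_span ⟨j, rfl⟩
  choose w hw using fun j => hspan (β j) (hβmem j)
  -- the linear maps
  let x : ((Fin r → ℤ) × (Fin s → ℤ)) →ₗ[ℤ] 𝒪 :=
    (Fintype.linearCombination ℤ v).coprod (-(Fintype.linearCombination ℤ w))
  let f : (Fin s → ℤ) →ₗ[ℤ] ((Fin r → ℤ) × (Fin s → ℤ)) :=
    (Fintype.linearCombination ℤ β).prod (m • LinearMap.id)
  have hf : ∀ γ, f γ = (Fintype.linearCombination ℤ β γ, m • γ) := fun γ => rfl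
  have hx : ∀ c d, x (c, d) = Fintype.linearCombination ℤ v c - Fintype.linearCombination ℤ w d := by
    intro c d
    simp only [x, LinearMap.coprod_apply, LinearMap.neg_apply]
    ring
  have hxf : x ∘ₗ f = 0 := by
    apply LinearMap.pi_ext'
    intro j
    ext
    rw [LinearMap.comp_apply, LinearMap.comp_apply, LinearMap.single_apply, LinearMap.zero_comp,
      LinearMap.zero_apply, hf, hx, map_smul,
      Fintype.linearCombination_apply_single, Fintype.linearCombination_apply_single, one_smul,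
      one_smul, Fintype.linearCombination_apply]
    have := hw j
    simp only [zsmul_eq_mul]
    rw [this]
    ring
  obtain ⟨k, a, y, hya, haf⟩ := Module.Flat.exists_factorization_of_comp_eq_zero_of_free hxf
  have hy : ∀ z : Fin k →₀ ℤ, y z = ∑ t, y (Finsupp.single t 1) * (z t : 𝒪) := by
    intro z
    conv_lhs => rw [← Finsupp.univ_sum_single z]
    rw [map_sum]
    refine Finset.sum_congr rfl fun t _ => ?_
    rw [← mul_one (z t), ← smul_eq_mul, ← Finsupp.smul_single, map_smul, zsmul_eq_mul, smul_eq_mul,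
      mul_one, mul_comm]
  have ha : ∀ (γ : Fin r → ℤ) (t : Fin k),
      a (γ, 0) t = ∑ i, γ i * a (Pi.single i 1, 0) t := by
    intro γ t
    have h1 : ((γ, 0) : (Fin r → ℤ) × (Fin s → ℤ))
        = ∑ i, γ i • ((Pi.single i 1, 0) : (Fin r → ℤ) × (Fin s → ℤ)) := by
      ext i
      · simp [Prod.fst_sum, Finset.sum_apply, Pi.single_apply]
      · simp [Prod.snd_sum]
    rw [h1, map_sum, Finsupp.finset_sum_apply]
    refine Finset.sum_congr rfl fun i _ => ?_
    rw [map_smul, Finsupp.smul_apply, smul_eq_mul]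
  refine ⟨k, fun t => y (Finsupp.single t 1), fun t i => a (Pi.single i 1, 0) t, ?_, ?_⟩
  · intro i
    have h1 : v i = x (Pi.single i 1, 0) := by
      rw [hx, map_zero, sub_zero, Fintype.linearCombination_apply_single, one_smul]
    rw [h1, hya, LinearMap.comp_apply, hy]
  · intro t
    have hgen : ∀ j, m ∣ ∑ i, β j i * a (Pi.single i 1, 0) t := by
      intro j
      have h1 : a (f (Pi.single j 1)) t = 0 := by
        have := congrArg (fun g => g (Pi.single j 1) t) haf
        simpa using this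
      have h2 : f (Pi.single j 1) = (β j, 0) + m • ((0, Pi.single j 1) : (Fin r → ℤ) × (Fin s → ℤ)) := by
        rw [hf, Fintype.linearCombination_apply_single, one_smul]
        ext i <;> simp
      rw [h2, map_add, map_smul, Finsupp.add_apply, Finsupp.smul_apply, ha, smul_eq_mul] at h1
      exact ⟨- a (0, Pi.single j 1) t, by linarith⟩
    have hall : ∀ γ ∈ Submodule.span ℤ (Set.range β), m ∣ ∑ i, γ i * a (Pi.single i 1, 0) t := by
      intro γ hγ
      induction hγ using Submodule.span_induction with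
      | mem x hx =>
        obtain ⟨j, rfl⟩ := hx
        exact hgen j
      | zero => simp
      | add x y _ _ hx hy =>
        have : ∑ i, (x + y) i * a (Pi.single i 1, 0) t
            = ∑ i, x i * a (Pi.single i 1, 0) t + ∑ i, y i * a (Pi.single i 1, 0) t := by
          rw [← Finset.sum_add_distrib]
          exact Finset.sum_congr rfl fun i _ => by rw [Pi.add_apply, add_mul]
        rw [this]
        exact dvd_add hx hy
      | smul c x _ hx =>
        have : ∑ i, (c • x) i * a (Pi.single i 1, 0) t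
            = c * ∑ i, x i * a (Pi.single i 1, 0) t := by
          rw [Finset.mul_sum]
          exact Finset.sum_congr rfl fun i _ => by rw [Pi.smul_apply, smul_eq_mul, mul_assoc]
        rw [this]
        exact Dvd.dvd.mul_left hx c
    intro γ hγ
    exact hall γ (hβ ▸ Submodule.subset_span hγ)

end Fermat.Agent.S36.Top
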