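import Fermat.Agent.S30.Padic
import Fermat.Agent.S36.Top.Flat

/-!
# S36 / Top : coordinates on a Tate module, with the kernel transfer property

`exists_hat_ker` = `S30.exists_hat` together with
(KER) if `Ψ x ∈ p^n T` for all `x ∈ T` with `Φ x ∈ p^n T` (`Φ ∈ 𝓢`), for all `n`, then
`hat Ψ` kills every `v ∈ 𝒪^r` killed by all `hat Φ`, `Φ ∈ 𝓢`  (`𝒪` flat over `ℤ`).
-/

set_option autoImplicit false

namespace Fermat.Agent.S36.Top

open Fermat.Agent.S30 Fermat.Agent.S30.PadicAux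

/-- `S30.exists_hat`, exporting the basis modulo `p`. -/
theorem exists_hat_basis {p : ℕ} (hp : p.Prime) {T : Type} [AddCommGroup T] (hT : IsTate p T)
    {s : ℕ} (v : Fin s → T)
    (hv : ∀ a : Fin s → ℤ, (∃ y : T, ∑ j, a j • v j = p • y) → ∀ j, (p : ℤ) ∣ a j)
    {𝒪 : Type} [CommRing 𝒪] (I : Ideal 𝒪) [IsAdicComplete I 𝒪] (hpI : (p : 𝒪) ∈ I) :
    ∃ (r : ℕ) (emb : Fin s → Fin r) (lam : T →+ (Fin r → 𝒪))
      (hat : AddMonoid.End T →+* Matrix (Fin r) (Fin r) 𝒪) (e : Fin r → T),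
      Function.Injective emb ∧
      (∀ j, lam (v j) = Pi.single (emb j) 1) ∧
      (∀ i, lam (e i) = Pi.single i 1) ∧
      (∀ (Φ : AddMonoid.End T) (x : T), (hat Φ).mulVec (lam x) = lam (Φ x)) ∧
      (∀ (n : ℕ) (x : T), ∃ (a : Fin r → ℤ) (y : T), x = ∑ i, a i • e i + p ^ n • y) := by
  classical
  obtain ⟨r, emb, e, hemb, heemb, G1, U1⟩ := exists_basis_mod hp hT v hv
  have Gn := gen_pow e G1
  have Un := uniq_pow e hT.tf U1
  obtain ⟨lam, hL⟩ := exists_lam e Gn Un I hpI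
  -- `lam (e i)` is the standard basis vector
  have hlame : ∀ i, lam (e i) = Pi.single i 1 := by
    intro i
    funext j
    rw [← sub_eq_zero]
    apply eq_zero_of_forall_mem_pow I
    intro n
    have h1 : e i = ∑ j, (Pi.single i 1 : Fin r → ℤ) j • e j + p ^ n • (0 : T) := by
      rw [smul_zero, add_zero, Finset.sum_eq_single i]
      · simp
      · intro j _ hj
        rw [Pi.single_eq_of_ne hj, zero_smul]
      · simp
    have h2 := hL n _ _ _ h1 j
    convert h2 using 2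
    by_cases hij : j = i
    · subst hij; simp
    · simp [Pi.single_eq_of_ne hij]
  let hat0 : AddMonoid.End T → Matrix (Fin r) (Fin r) 𝒪 := fun Φ =>
    Matrix.of fun i j => lam (Φ (e j)) i
  have hcol : ∀ (Φ : AddMonoid.End T) (j : Fin r), (hat0 Φ).mulVec (Pi.single j 1) = lam (Φ (e j)) := by
    intro Φ j
    rw [Matrix.mulVec_single_one]
    rfl
  have hmain : ∀ (Φ : AddMonoid.End T) (x : T), (hat0 Φ).mulVec (lam x) = lam (Φ x) := by
    intro Φ x
    funext i
    rw [← sub_eq_zero]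
    apply eq_zero_of_forall_mem_pow I
    intro n
    obtain ⟨a, y, h⟩ := Gn n x
    have h1 : lam x = ∑ j, a j • (Pi.single j 1 : Fin r → 𝒪) + p ^ n • lam y := by
      rw [h, map_add, map_sum, map_nsmul]
      congr 1
      refine Finset.sum_congr rfl fun j _ => ?_
      rw [map_zsmul, hlame]
    have h2 : lam (Φ x) = ∑ j, a j • lam (Φ (e j)) + p ^ n • lam (Φ y) := by
      rw [h, map_add, map_add, map_sum, map_sum, map_nsmul, map_nsmul]
      congr 1
      refine Finset.sum_congr rfl fun j _ => ?_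
      rw [map_zsmul, map_zsmul]
    have h3 : (hat0 Φ).mulVec (lam x)
        = ∑ j, a j • lam (Φ (e j)) + p ^ n • (hat0 Φ).mulVec (lam y) := by
      rw [h1, ← Matrix.mulVecLin_apply, map_add, map_sum, map_nsmul]
      congr 1
      refine Finset.sum_congr rfl fun j _ => ?_
      rw [map_zsmul, Matrix.mulVecLin_apply, hcol]
    rw [h3, h2]
    have h4 : (∑ j, a j • lam (Φ (e j)) + p ^ n • (hat0 Φ).mulVec (lam y)) i
        - (∑ j, a j • lam (Φ (e j)) + p ^ n • lam (Φ y)) i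
        = (p : 𝒪) ^ n * ((hat0 Φ).mulVec (lam y) i - lam (Φ y) i) := by
      rw [Pi.add_apply, Pi.add_apply, add_sub_add_left_eq_sub, Pi.smul_apply, Pi.smul_apply,
        nsmul_eq_mul, nsmul_eq_mul, ← mul_sub]
      push_cast
      rfl
    rw [h4]
    exact Ideal.mul_mem_right _ _ (Ideal.pow_mem_pow hpI n)
  let hat : AddMonoid.End T →+* Matrix (Fin r) (Fin r) 𝒪 :=
    { toFun := hat0
      map_one' := by
        ext i j
        show lam (e j) i = _
        rw [hlame, Matrix.one_apply, Pi.single_apply]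
      map_mul' := by
        intro Φ Ψ
        ext i j
        have h1 : (hat0 Φ * hat0 Ψ) i j = ((hat0 Φ).mulVec (lam (Ψ (e j)))) i := rfl
        rw [h1, hmain]
        rfl
      map_zero' := by
        ext i j
        show lam ((0 : AddMonoid.End T) (e j)) i = 0
        simp
      map_add' := by
        intro Φ Ψ
        ext i j
        show lam ((Φ + Ψ) (e j)) i = lam (Φ (e j)) i + lam (Ψ (e j)) i
        have h1 : (Φ + Ψ) (e j) = Φ (e j) + Ψ (e j) := rfl
        rw [h1, map_add, Pi.add_apply] }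
  refine ⟨r, emb, lam, hat, e, hemb, ?_, hlame, hmain, Gn⟩
  intro j
  rw [← heemb, hlame]

/-- **the kernel transfer property.** -/
theorem hat_ker {p : ℕ} {T : Type} [AddCommGroup T]
    {𝒪 : Type} [CommRing 𝒪] [Module.Flat ℤ 𝒪] (I : Ideal 𝒪) [IsAdicComplete I 𝒪]
    (hpI : (p : 𝒪) ∈ I) {r : ℕ} (lam : T →+ (Fin r → 𝒪))
    (hat : AddMonoid.End T →+* Matrix (Fin r) (Fin r) 𝒪) (e : Fin r → T)
    (hlame : ∀ i, lam (e i) = Pi.single i 1)
    (hmain : ∀ (Φ : AddMonoid.End T) (x : T), (hat Φ).mulVec (lam x) = lam (Φ x))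
    (Gn : ∀ (n : ℕ) (x : T), ∃ (a : Fin r → ℤ) (y : T), x = ∑ i, a i • e i + p ^ n • y)
    (𝓢 : Set (AddMonoid.End T)) (Ψ : AddMonoid.End T)
    (H : ∀ (n : ℕ) (x : T), (∀ Φ ∈ 𝓢, ∃ y : T, Φ x = p ^ n • y) → ∃ y : T, Ψ x = p ^ n • y)
    (v : Fin r → 𝒪) (hv : ∀ Φ ∈ 𝓢, (hat Φ).mulVec v = 0) : (hat Ψ).mulVec v = 0 := by
  classical
  funext i₀
  apply eq_zero_of_forall_mem_pow I
  intro n
  -- integral approximations of the columns
  choose a y hay using fun (Φ : AddMonoid.End T) (j : Fin r) => Gn n (Φ (e j))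
  have hlamX : ∀ X : Fin r → ℤ, lam (∑ j, X j • e j) = fun i => (X i : 𝒪) := by
    intro X
    rw [map_sum]
    funext i
    rw [Finset.sum_apply, Finset.sum_eq_single i]
    · rw [map_zsmul, hlame, Pi.smul_apply, Pi.single_eq_same, zsmul_eq_mul, mul_one]
    · intro j _ hj
      rw [map_zsmul, hlame, Pi.smul_apply, Pi.single_eq_of_ne hj.symm, smul_zero]
    · simp
  have hentry : ∀ (Φ : AddMonoid.End T) (i j : Fin r),
      hat Φ i j = (a Φ j i : 𝒪) + (p : 𝒪) ^ n * lam (y Φ j) i := by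
    intro Φ i j
    have h1 : hat Φ i j = (hat Φ).mulVec (lam (e j)) i := by
      rw [hlame, Matrix.mulVec_single_one]
      rfl
    rw [h1, hmain, hay Φ j, map_add, hlamX, map_nsmul, Pi.add_apply, Pi.smul_apply, nsmul_eq_mul]
    push_cast
    rfl
  let 𝓕 : Set (Fin r → ℤ) := {β | ∃ Φ ∈ 𝓢, ∃ i : Fin r, β = fun j => a Φ j i}
  obtain ⟨k, b, X, hvX, hX⟩ := flat_descent ((p : ℤ) ^ n) 𝓕 v (by
    rintro _ ⟨Φ, hΦ, i, rfl⟩
    refine ⟨- ∑ j, lam (y Φ j) i * v j, ?_⟩
    have h1 := congrFun (hv Φ hΦ) i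
    rw [Matrix.mulVec, dotProduct, Pi.zero_apply] at h1
    simp only [hentry, add_mul, Finset.sum_add_distrib] at h1
    push_cast
    rw [mul_neg, Finset.mul_sum, eq_neg_iff_add_eq_zero, ← h1]
    congr 1
    exact Finset.sum_congr rfl fun j _ => by ring)
  -- the integral vectors are approximately killed
  have hkill : ∀ t, ∃ z : T, Ψ (∑ j, X t j • e j) = p ^ n • z := by
    intro t
    apply H n
    intro Φ hΦ
    choose c hc using fun i => hX t (fun j => a Φ j i) ⟨Φ, hΦ, i, rfl⟩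
    refine ⟨∑ i, c i • e i + ∑ j, X t j • y Φ j, ?_⟩
    rw [map_sum]
    have h1 : ∀ j, Φ (X t j • e j) = ∑ i, (X t j * a Φ j i) • e i + p ^ n • (X t j • y Φ j) := by
      intro j
      rw [map_zsmul, hay Φ j, smul_add, Finset.smul_sum, smul_comm]
      congr 1
      exact Finset.sum_congr rfl fun i _ => by rw [mul_smul]
    simp only [h1, Finset.sum_add_distrib]
    rw [Finset.sum_comm, smul_add, Finset.smul_sum, Finset.smul_sum]
    congr 1
    refine Finset.sum_congr rfl fun i _ => ?_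
    rw [← Finset.sum_smul]
    have h2 : ∑ j, X t j * a Φ j i = (p : ℤ) ^ n * c i := by
      rw [← hc i]
      exact Finset.sum_congr rfl fun j _ => mul_comm _ _
    rw [h2, mul_smul, ← Nat.cast_pow, natCast_zsmul]
  choose z hz using hkill
  have hv' : v = ∑ t, b t • (fun i => (X t i : 𝒪)) := by
    funext i
    rw [hvX i, Finset.sum_apply]
    rfl
  rw [hv', Matrix.mulVec_sum, Finset.sum_apply]
  refine Ideal.sum_mem _ fun t _ => ?_
  rw [Matrix.mulVec_smul, ← hlamX, hmain, hz, map_nsmul, Pi.smul_apply, Pi.smul_apply, nsmul_eq_mul,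
    smul_eq_mul, mul_left_comm]
  push_cast
  exact Ideal.mul_mem_right _ _ (Ideal.pow_mem_pow hpI n)

end Fermat.Agent.S36.Top
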