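import Fermat.Agent.ES.D.Abstract

/-!
# S36 / Top : a group of operators with `(g - 1)² = 0` has a nonzero fixed vector (char `≠ 2`)
-/

set_option autoImplicit false

namespace Fermat.Agent.S36.Top

open Fermat.Agent.ES.D

section ring

variable {R : Type*} [Ring R]

/-- the noncommutative identity behind Kolchin's theorem for quadratic unipotents. -/
theorem kolchin_ring (two : ∀ x : R, x + x = 0 → x = 0) {A B h' : R} (hB : B * B = 0)
    (hh' : (1 + B) * h' = 1)
    (s1 : ((1 + A) * (1 + B) - 1) * ((1 + A) * (1 + B) - 1) = 0)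
    (s2 : ((1 - A) * (1 + B) - 1) * ((1 - A) * (1 + B) - 1) = 0) :
    (1 + B) * A = A * (1 - B * h') := by
  have h3 : (B * A * (1 + B) + A * B) + (B * A * (1 + B) + A * B) = 0 := by
    have : (B * A * (1 + B) + A * B) + (B * A * (1 + B) + A * B)
        = ((1 + A) * (1 + B) - 1) * ((1 + A) * (1 + B) - 1)
          - ((1 - A) * (1 + B) - 1) * ((1 - A) * (1 + B) - 1) - (A * (B * B) + A * (B * B)) := by
      noncomm_ring
    rw [this, s1, s2, hB]
    simp
  have h4 := two _ h3
  have h5 : B * A * (1 + B) = - (A * B) := eq_neg_of_add_eq_zero_left h4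
  have h6 : B * A = - (A * B * h') := by
    calc B * A = B * A * ((1 + B) * h') := by rw [hh', mul_one]
      _ = (B * A * (1 + B)) * h' := by rw [mul_assoc, mul_assoc, mul_assoc]
      _ = - (A * B * h') := by rw [h5, neg_mul]
  calc (1 + B) * A = A + B * A := by rw [add_mul, one_mul]
    _ = A * (1 - B * h') := by rw [h6, mul_sub, mul_one, mul_assoc, sub_eq_add_neg]

theorem inv_eq_one_sub {A g' : R} (hA : A * A = 0) (h : g' * (1 + A) = 1) : g' = 1 - A := by
  have h3 : (1 + A) * (1 - A) = 1 := by
    have : (1 + A) * (1 - A) = 1 - A * A := by noncomm_ring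
    rw [this, hA, sub_zero]
  calc g' = g' * ((1 + A) * (1 - A)) := by rw [h3, mul_one]
    _ = 1 - A := by rw [← mul_assoc, h, one_mul]

end ring

variable {K M G : Type*} [Field K] [AddCommGroup M] [Module K M]

theorem exists_fixed_of_quadratic_unipotent [FiniteDimensional K M] [Group G] (h2 : (2 : K) ≠ 0)
    (a : G →* Module.End K M) (W : Submodule K M) (hW : W ≠ ⊥) (hstab : ∀ g, ∀ x ∈ W, a g x ∈ W)
    (hq : ∀ g, ∀ x ∈ W, a g (a g x) - (2 : K) • a g x + x = 0) :
    ∃ w ∈ W, w ≠ 0 ∧ ∀ g, a g w = w := by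
  classical
  obtain ⟨U, hUW, hU0, hUst, hUmin⟩ := exists_minimal_stable (fun g => a g) W hW hstab
  let rU : G →* Module.End K U := restrictRep a U hUst
  have hirr : ∀ W' : Submodule K U, (∀ g, ∀ x ∈ W', rU g x ∈ W') → W' = ⊥ ∨ W' = ⊤ :=
    fun W' hW' => restrictRep_irreducible a U hUst hUmin W' hW'
  have hsq : ∀ g, (rU g - 1) * (rU g - 1) = 0 := by
    intro g
    ext x
    have := hq g x (hUW x.2)
    simp only [Module.End.mul_apply, LinearMap.sub_apply, Module.End.one_apply, map_sub,
      LinearMap.zero_apply, Submodule.coe_sub, ZeroMemClass.coe_zero]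
    rw [restrictRep_apply, restrictRep_apply]
    rw [two_smul] at this
    rw [← this]
    abel
  have two : ∀ x : Module.End K U, x + x = 0 → x = 0 := by
    intro x hx
    rw [← two_smul K x] at hx
    exact (smul_eq_zero.mp hx).resolve_left h2
  have htriv : ∀ g, rU g = 1 := by
    intro g
    obtain ⟨A, hA⟩ : ∃ A : Module.End K U, A = rU g - 1 := ⟨_, rfl⟩
    have hAA : A * A = 0 := by rw [hA]; exact hsq g
    have hg : rU g = 1 + A := by rw [hA]; abel
    have hginv : rU g⁻¹ = 1 - A := by
      apply inv_eq_one_sub hAA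
      rw [← hg, ← map_mul, inv_mul_cancel, map_one]
    have hstable : ∀ h, ∀ x ∈ LinearMap.range A, rU h x ∈ LinearMap.range A := by
      rintro h _ ⟨u, rfl⟩
      obtain ⟨B, hB⟩ : ∃ B : Module.End K U, B = rU h - 1 := ⟨_, rfl⟩
      have hh : rU h = 1 + B := by rw [hB]; abel
      have key := kolchin_ring two (A := A) (B := B) (h' := rU h⁻¹) (by rw [hB]; exact hsq h)
        (by rw [← hh, ← map_mul, mul_inv_cancel, map_one])
        (by rw [← hg, ← hh, ← map_mul]; exact hsq _)
        (by rw [← hginv, ← hh, ← map_mul]; exact hsq _)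
      rw [← hh] at key
      refine ⟨(1 - B * rU h⁻¹) u, ?_⟩
      exact (congrArg (fun f : Module.End K U => f u) key).symm
    have hA0 : A = 0 := by
      rcases hirr _ hstable with h | h
      · exact LinearMap.range_eq_bot.mp h
      · apply LinearMap.ext
        intro x
        obtain ⟨y, hy⟩ : x ∈ LinearMap.range A := h ▸ Submodule.mem_top
        have : A x = (A * A) y := by rw [← hy]; rfl
        rw [this, hAA]
        rfl
    rw [hg, hA0, add_zero]
  obtain ⟨u, hu, hu0⟩ := Submodule.exists_mem_ne_zero_of_ne_bot hU0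
  refine ⟨u, hUW hu, hu0, fun g => ?_⟩
  have := congrArg (fun f : Module.End K U => ((f ⟨u, hu⟩ : U) : M)) (htriv g)
  exact this

end Fermat.Agent.S36.Top
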