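import Fermat.Agent.ES.D.Adic.S30Of
import Fermat.Agent.S36.Top.Kolchin

/-!
# S36 / Top : a representation which is unipotent on `H` has an `H`-fixed vector in the eigenlattice
-/

set_option autoImplicit false

namespace Fermat.Agent.S36.Top

open Fermat.Agent.ES Fermat.Agent.ES.D Polynomial

variable {p : ℕ} [Fact p.Prime] {N : ℕ} [NeZero N] {S : Finset ℕ}
  {𝒪 : Type} [CommRing 𝒪] [IsDomain 𝒪] [IsDiscreteValuationRing 𝒪]

omit [Fact p.Prime] in
theorem mulVec_injective (E : AdicTower N p 𝒪 (IsLocalRing.maximalIdeal 𝒪)) (σ : GQ)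
    (w : Fin E.r → 𝒪) (h : (E.R σ).mulVec w = 0) : w = 0 := by
  have h1 : (E.R σ⁻¹ * E.R σ).mulVec w = w := by
    rw [← map_mul, inv_mul_cancel, map_one, Matrix.one_mulVec]
  rw [← h1, ← Matrix.mulVec_mulVec, h, Matrix.mulVec_zero]

/-- the exact quadratic relation on the eigenlattice, with an INTEGRAL trace. -/
theorem exists_quad_int [IsAdicComplete (IsLocalRing.maximalIdeal 𝒪) 𝒪]
    (hFD : FrobPowerDensity) {κ : GQ →* 𝒪ˣ} (hκ : IsKappa p (IsLocalRing.maximalIdeal 𝒪) κ)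
    (hpS : p ∈ S) (hNS : ∀ q : ℕ, q.Prime → q ∣ N → q ∈ S)
    (E : AdicTower N p 𝒪 (IsLocalRing.maximalIdeal 𝒪)) (a : GoodPrime N → 𝒪)
    (hne : ∃ w ∈ E.eigenLattice S a, w ≠ 0) (σ : GQ) :
    ∃ t : 𝒪, ∀ w ∈ E.eigenLattice S a,
      (E.R σ).mulVec ((E.R σ).mulVec w) - t • (E.R σ).mulVec w + (κ σ : 𝒪) • w = 0 := by
  set K := FractionRing 𝒪 with hK
  set W₀ := E.eigenLattice S a with hW₀
  obtain ⟨t, ht⟩ := Quad.exists_of_approx (IsLocalRing.maximalIdeal 𝒪) K W₀ (E.R σ)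
    (mulVec_injective E σ) (κ σ : 𝒪) (fun n => E.approx hFD hκ hpS hNS σ n)
  have ht' : ∀ w ∈ W₀, t • toK K ((E.R σ).mulVec w)
      = toK K ((E.R σ).mulVec ((E.R σ).mulVec w) + (κ σ : 𝒪) • w) := by
    intro w hw
    funext i
    rw [Pi.smul_apply, smul_eq_mul, toK_apply, toK_apply, ht w hw i]
  -- `t` is integral
  have hint : IsIntegral 𝒪 t := by
    refine isIntegral_of_smul_mem_submodule (M := Fin E.r → K) (W₀.map (toK K)) ?_ ?_ t ?_
    · obtain ⟨w, hw, hw0⟩ := hne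
      intro h0
      have h1 : toK K w ∈ W₀.map (toK K) := ⟨w, hw, rfl⟩
      rw [h0, Submodule.mem_bot] at h1
      exact hw0 (toK_injective K (h1.trans (map_zero _).symm))
    · exact (IsNoetherian.noetherian W₀).map _
    · rintro _ ⟨w, hw, rfl⟩
      have h1 : (E.R σ).mulVec ((E.R σ⁻¹).mulVec w) = w := by
        rw [Matrix.mulVec_mulVec, ← map_mul, mul_inv_cancel, map_one, Matrix.one_mulVec]
      have h2 := ht' _ (E.mulVec_mem σ⁻¹ hw)
      rw [h1] at h2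
      rw [h2]
      exact ⟨_, W₀.add_mem (E.mulVec_mem σ hw) (W₀.smul_mem _ (E.mulVec_mem σ⁻¹ hw)), rfl⟩
  obtain ⟨t₀, rfl⟩ := IsIntegrallyClosed.isIntegral_iff.mp hint
  refine ⟨t₀, fun w hw => ?_⟩
  apply toK_injective K
  have h3 := ht' w hw
  rw [map_zero, ← sub_eq_zero.mpr h3.symm, ← toK_smul, ← map_sub]
  congr 1
  abel

/-- **Unipotent on `H` ⟹ a nonzero `H`-fixed vector in the eigenlattice.** -/
theorem exists_fixed_of_unipotent [IsAdicComplete (IsLocalRing.maximalIdeal 𝒪) 𝒪] [CharZero 𝒪]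
    (hFD : FrobPowerDensity) {κ : GQ →* 𝒪ˣ} (hκ : IsKappa p (IsLocalRing.maximalIdeal 𝒪) κ)
    (hpS : p ∈ S) (hNS : ∀ q : ℕ, q.Prime → q ∣ N → q ∈ S)
    (E : AdicTower N p 𝒪 (IsLocalRing.maximalIdeal 𝒪)) (a : GoodPrime N → 𝒪)
    (hne : ∃ w ∈ E.eigenLattice S a, w ≠ 0) (ρ : GaloisRepAdic 𝒪)
    (hchar : ∀ (σ : GQ) (t : 𝒪), (∀ w ∈ E.eigenLattice S a,
          (E.R σ).mulVec ((E.R σ).mulVec w) - t • (E.R σ).mulVec w + (κ σ : 𝒪) • w = 0) →
        LinearMap.charpoly (ρ.ρ σ) = X ^ 2 - C t * X + C (κ σ : 𝒪))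
    (H : Subgroup GQ) (hκH : ∀ σ ∈ H, κ σ = 1)
    (hU : ∀ σ ∈ H, LinearMap.charpoly (ρ.ρ σ) = (X - 1) ^ 2) :
    ∃ w ∈ E.eigenLattice S a, w ≠ 0 ∧ ∀ σ ∈ H, (E.R σ).mulVec w = w := by
  set K := FractionRing 𝒪 with hK
  set W₀ := E.eigenLattice S a with hW₀
  have hinjK : Function.Injective (algebraMap 𝒪 K) := IsFractionRing.injective 𝒪 K
  have h2 : (2 : K) ≠ 0 := by
    have : (2 : K) = algebraMap 𝒪 K 2 := by rw [map_ofNat]
    rw [this]
    intro h0
    exact two_ne_zero ((map_eq_zero_iff _ hinjK).mp h0)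
  -- the relation `(σ - 1)² = 0` on the lattice
  have hrel : ∀ σ ∈ H, ∀ w ∈ W₀,
      (E.R σ).mulVec ((E.R σ).mulVec w) - (2 : 𝒪) • (E.R σ).mulVec w + w = 0 := by
    intro σ hσ w hw
    obtain ⟨t, ht⟩ := exists_quad_int hFD hκ hpS hNS E a hne σ
    have h1 := hchar σ t ht
    rw [hU σ hσ] at h1
    have h3 := congrArg (fun f => f.coeff 1) h1
    have h4 : t = 2 := by
      have e1 : ((X - 1 : 𝒪[X]) ^ 2).coeff 1 = -2 := by
        have : (X - 1 : 𝒪[X]) ^ 2 = X ^ 2 - C 2 * X + C 1 := by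
          simp only [map_ofNat, map_one]; ring
        rw [this]
        simp [coeff_C, coeff_one]
      have e2 : (X ^ 2 - C t * X + C (κ σ : 𝒪) : 𝒪[X]).coeff 1 = -t := by
        simp [coeff_C]
      simp only [e1, e2] at h3
      exact (neg_injective h3).symm
    have h5 := ht w hw
    rw [h4, hκH σ hσ, Units.val_one, one_smul] at h5
    exact h5
  -- transfer to the span
  obtain ⟨w₀, hw₀, hw₀0⟩ := hne
  have hW0 : spanK K W₀ ≠ ⊥ := by
    intro h0
    have h1 : toK K w₀ ∈ spanK K W₀ := Submodule.subset_span ⟨w₀, hw₀, rfl⟩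
    rw [h0, Submodule.mem_bot] at h1
    exact hw₀0 (toK_injective K (h1.trans (map_zero _).symm))
  have hW : ∀ σ, ∀ x ∈ spanK K W₀, actK K E.R σ x ∈ spanK K W₀ := by
    intro σ
    apply spanK_stable
    intro w hw
    rw [actK_toK]
    exact Submodule.subset_span ⟨_, E.mulVec_mem σ hw, rfl⟩
  have hrelK : ∀ σ ∈ H, ∀ x ∈ spanK K W₀,
      actK K E.R σ (actK K E.R σ x) - (2 : K) • actK K E.R σ x + x = 0 := by
    intro σ hσ
    apply spanK_le_ker K (actK K E.R σ * actK K E.R σ - (2 : K) • actK K E.R σ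
      + (1 : Module.End K (Fin E.r → K)))
    intro w hw
    simp only [LinearMap.add_apply, LinearMap.sub_apply, Module.End.mul_apply,
      LinearMap.smul_apply, Module.End.one_apply]
    have e2 : (2 : K) = algebraMap 𝒪 K 2 := by rw [map_ofNat]
    rw [actK_toK, actK_toK, e2, ← toK_smul, ← map_sub, ← map_add, hrel σ hσ w hw, map_zero]
  obtain ⟨x, hx, hx0, hxfix⟩ := exists_fixed_of_quadratic_unipotent h2
    ((actK K E.R).comp H.subtype) (spanK K W₀) hW0 (fun g => hW g.1) (fun g => hrelK g.1 g.2)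
  -- eigenvector property on the span
  have heig : ∀ ℓ : GoodPrime N, ℓ.1 ∉ S →
      ((algebraMap 𝒪 K).mapMatrix (E.T ℓ)).mulVec x = algebraMap 𝒪 K (a ℓ) • x := by
    intro ℓ hℓ
    have := spanK_le_ker K (W₀ := W₀) (Matrix.toLin' ((algebraMap 𝒪 K).mapMatrix (E.T ℓ))
      - algebraMap 𝒪 K (a ℓ) • (1 : Module.End K (Fin E.r → K))) (by
        intro w hw
        rw [LinearMap.sub_apply, LinearMap.smul_apply, Module.End.one_apply, Matrix.toLin'_apply,
          ← toK_mulVec, ← toK_smul, hw ℓ hℓ, sub_self]) x hx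
    rw [LinearMap.sub_apply, LinearMap.smul_apply, Module.End.one_apply, Matrix.toLin'_apply,
      sub_eq_zero] at this
    exact this
  -- clear denominators
  obtain ⟨b, hb⟩ := IsLocalization.exist_integer_multiples_of_finite (nonZeroDivisors 𝒪) x
  choose w hw using hb
  have hwx : toK K w = algebraMap 𝒪 K (b : 𝒪) • x := by
    funext i
    rw [toK_apply, hw i, Pi.smul_apply, Algebra.smul_def, smul_eq_mul]
  have hb0 : algebraMap 𝒪 K (b : 𝒪) ≠ 0 := by
    intro h0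
    exact nonZeroDivisors.coe_ne_zero b ((map_eq_zero_iff _ hinjK).mp h0)
  refine ⟨w, ?_, ?_, ?_⟩
  · intro ℓ hℓ
    apply toK_injective K
    rw [toK_mulVec, toK_smul, hwx, Matrix.mulVec_smul, heig ℓ hℓ, smul_comm]
  · intro h0
    rw [h0] at hwx
    have h1 : algebraMap 𝒪 K (b : 𝒪) • x = 0 := by
      rw [← hwx]; exact map_zero _
    exact hx0 ((smul_eq_zero.mp h1).resolve_left hb0)
  · intro σ hσ
    apply toK_injective K
    have h1 : actK K E.R σ x = x := hxfix ⟨σ, hσ⟩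
    rw [← actK_toK, hwx, map_smul, h1]

end Fermat.Agent.S36.Top
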