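import Fermat.Agent.S36.Top.Tower
import Fermat.Agent.S36.Top.Rep
import Fermat.Agent.SS.New.Main
import Fermat.Agent.SS.Top.Aux35
import Fermat.Agent.ES.Glue.Surj
import Fermat.Agent.S22

/-!
# S36 / Top : the frozen statement S36 from CRUX and (NOINV)

`NoInv M q p` : there are a proper divisor `M'` of `M`, Galois equivariant maps
`D i n : Kum M (p ^ n) → Kum M' (p ^ n)` (think: the two norm maps to level `M / q`), a place `A` of `Qbar`
over `q` and `c ≠ 0` (independent of `n`) such that `c • x = 0` for all `x ∈ Kum M (p ^ n)` which are fixed by the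
inertia group of `A` and killed by all `D i n`.

`S36_of` : CRUX + `NoInv M q p` for all `q² ∥ M`, `q ≠ p`   ⟹   the frozen statement S36.
(Neither `hres` nor `lam ≠ 2` is used.)
-/

set_option autoImplicit false

namespace Fermat.Agent.S36.Top

open Fermat.Agent.ES Fermat.Agent.ES.D Fermat.Agent.SS Polynomial

/-- **(NOINV)**: what `S36/Top` consumes. -/
def NoInv (M q p : ℕ) [NeZero M] : Prop :=
  ∃ (M' : ℕ) (_ : NeZero M') (ι : Type) (Dg : ι → ∀ n : ℕ, Kum M (p ^ n) →+ Kum M' (p ^ n))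
    (A : ValuationSubring Qb) (c : ℕ),
    M' ∣ M ∧ M' ≠ M ∧ A.LiesOverPrime q ∧ c ≠ 0 ∧
    (∀ (i : ι) (n : ℕ) (σ : GQ) (x : Kum M (p ^ n)),
      Dg i n (galKum M (p ^ n) σ x) = galKum M' (p ^ n) σ (Dg i n x)) ∧
    ∀ (n : ℕ) (x : Kum M (p ^ n)), (∀ σ ∈ A.inertiaSubgroupIn ℚ, galKum M (p ^ n) σ x = x) →
      (∀ i, Dg i n x = 0) → c • x = 0

section lifts

theorem lift_lift_ι {ι κ B : Type*} [Ring B] (g : ι → κ) (b : κ → B) (P : FreeAlgebra ℤ ι) :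
    FreeAlgebra.lift ℤ b (FreeAlgebra.lift ℤ (fun i => FreeAlgebra.ι ℤ (g i)) P)
      = FreeAlgebra.lift ℤ (fun i => b (g i)) P := by
  have : (FreeAlgebra.lift ℤ b).comp (FreeAlgebra.lift ℤ (fun i => FreeAlgebra.ι ℤ (g i)))
      = FreeAlgebra.lift ℤ (fun i => b (g i)) := by
    apply FreeAlgebra.hom_ext
    funext i
    simp
  exact DFunLike.congr_fun this P

theorem lift_gal_comm {N m : ℕ} [NeZero N] {ι : Type*} (g : ι → GoodPrime N)
    (P : FreeAlgebra ℤ ι) (σ : GQ) (x : Kum N m) :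
    galKum N m σ (FreeAlgebra.lift ℤ (fun i => heckeT N m (g i)) P x)
      = FreeAlgebra.lift ℤ (fun i => heckeT N m (g i)) P (galKum N m σ x) := by
  induction P using FreeAlgebra.induction generalizing x with
  | grade0 r =>
    rw [AlgHom.commutes, Module.algebraMap_end_apply, Module.algebraMap_end_apply, map_zsmul]
  | grade1 i =>
    rw [FreeAlgebra.lift_ι_apply, heckeT_apply, heckeT_apply]
    have : NeZero (g i).1 := ⟨(g i).2.1.ne_zero⟩
    exact galKum_heckeKum N (g i).1 (g i).2.1 (g i).2.2 σ x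
  | mul a b ha hb =>
    rw [map_mul, Module.End.mul_apply, Module.End.mul_apply, ha, hb]
  | add a b ha hb =>
    rw [map_add, LinearMap.add_apply, LinearMap.add_apply, map_add, ha, hb]

theorem lift_mulVec_eigen {𝒪 : Type*} [CommRing 𝒪] {r : ℕ} {ι : Type*}
    (T : ι → Matrix (Fin r) (Fin r) 𝒪) (a : ι → 𝒪) (w : Fin r → 𝒪)
    (hw : ∀ i, (T i).mulVec w = a i • w) (P : FreeAlgebra ℤ ι) :
    (FreeAlgebra.lift ℤ T P).mulVec w = FreeAlgebra.lift ℤ a P • w := by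
  induction P using FreeAlgebra.induction with
  | grade0 n =>
    rw [AlgHom.commutes, AlgHom.commutes, Algebra.algebraMap_eq_smul_one, Matrix.smul_mulVec,
      Matrix.one_mulVec, Algebra.algebraMap_eq_smul_one, smul_assoc, one_smul]
  | grade1 i => rw [FreeAlgebra.lift_ι_apply, FreeAlgebra.lift_ι_apply, hw]
  | mul x y hx hy =>
    rw [map_mul, map_mul, ← Matrix.mulVec_mulVec, hy, Matrix.mulVec_smul, hx, smul_smul, mul_comm]
  | add x y hx hy => rw [map_add, map_add, Matrix.add_mulVec, hx, hy, add_smul]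

end lifts

/-- the kernel form of (NOINV): `c • P(T)` kills the inertia invariants if `P(T) = 0` at level `M'`. -/
theorem kerForm_of_noInv
    (hcrux : ∀ (N ℓ m : ℕ) [NeZero N], ℓ.Prime → ¬ ℓ ∣ N → ¬ ℓ ∣ m → Crux N ℓ m)
    {M M' p : ℕ} [NeZero M] [NeZero M'] (hp : p.Prime) (S : Finset ℕ) (hpS : p ∈ S)
    (hMS : ∀ q : ℕ, q.Prime → q ∣ M → q ∈ S) (hM'S : ∀ q : ℕ, q.Prime → q ∣ M' → q ∈ S)
    {ι : Type} (Dg : ι → ∀ n : ℕ, Kum M (p ^ n) →+ Kum M' (p ^ n)) (H : Set GQ) (c : ℕ)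
    (hD : ∀ (i : ι) (n : ℕ) (σ : GQ) (x : Kum M (p ^ n)),
      Dg i n (galKum M (p ^ n) σ x) = galKum M' (p ^ n) σ (Dg i n x))
    (hc : ∀ (n : ℕ) (x : Kum M (p ^ n)), (∀ σ ∈ H, galKum M (p ^ n) σ x = x) →
      (∀ i, Dg i n x = 0) → c • x = 0)
    (P : FreeAlgebra ℤ (GP S))
    (hP : FreeAlgebra.lift ℤ (fun ℓ : GP S => heckeS2 M' (ℓ.good hM'S)) P = 0)
    (n : ℕ) (x : Kum M (p ^ n)) (hx : ∀ σ ∈ H, galKum M (p ^ n) σ x = x) :
    c • FreeAlgebra.lift ℤ (fun ℓ : GP S => heckeT M (p ^ n) (ℓ.good hMS)) P x = 0 := by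
  have hpn : p ^ n ≠ 0 := pow_ne_zero _ hp.ne_zero
  have hℓp : ∀ ℓ : GP S, ¬ ℓ.1 ∣ p ^ n := fun ℓ h =>
    ℓ.2.2 (((Nat.prime_dvd_prime_iff_eq ℓ.2.1 hp).mp (ℓ.2.1.dvd_of_dvd_pow h)) ▸ hpS)
  apply hc n
  · intro σ hσ
    rw [lift_gal_comm, hx σ hσ]
  · intro i
    rw [lift_comm hpn (Dg i n) (hD i n) S hMS hM'S
      (fun ℓ => hcrux M ℓ.1 (p ^ n) ℓ.2.1 (ℓ.good hMS).2.2 (hℓp ℓ))
      (fun ℓ => hcrux M' ℓ.1 (p ^ n) ℓ.2.1 (ℓ.good hM'S).2.2 (hℓp ℓ))]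
    have h0 := Glue.cosupp_Kum (N := M') (Nat.pos_of_ne_zero hpn)
      (FreeAlgebra.lift ℤ (fun ℓ : GP S => FreeAlgebra.ι ℤ (ℓ.good hM'S)) P)
      (by rw [lift_lift_ι]; exact hP)
    rw [lift_lift_ι] at h0
    rw [h0, LinearMap.zero_apply]

/-- **S36 from CRUX and (NOINV).** -/
theorem S36_of
    (hcrux : ∀ (N ℓ m : ℕ) [NeZero N], ℓ.Prime → ¬ ℓ ∣ N → ¬ ℓ ∣ m → Crux N ℓ m)
    (hNoInv : ∀ (M q p : ℕ) [NeZero M], q.Prime → p.Prime → q ≠ p → M.factorization q = 2 →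
      NoInv M q p)
    {M : ℕ} [NeZero M] {g : CuspForm (CongruenceSubgroup.Gamma0 M) 2} (hg : g.IsNewform)
    (lam : ℕ) [Fact lam.Prime]
    (S : Finset ℕ)
    (O' : Type) [CommRing O'] [IsDomain O'] [IsDiscreteValuationRing O']
    [IsAdicComplete (IsLocalRing.maximalIdeal O') O'] [Finite (IsLocalRing.ResidueField O')]
    [CharZero O'] (hlamO' : (lam : O') ∈ IsLocalRing.maximalIdeal O')
    (chig : CuspForm.heckeAlgebra M 2 (↑S : Set ℕ) →+* ℂ)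
    (hchig : ∀ (ℓ : ℕ) (hℓ : ℓ.Prime) (hℓM : ¬ ℓ ∣ M) (hℓS : ℓ ∉ (↑S : Set ℕ)),
      chig (CuspForm.heckeAlgebra.T hℓ hℓM hℓS) = ModularFormClass.qCoeff g ℓ)
    (iota : chig.range →+* O')
    (hlamS : lam ∈ S) (hMS : ∀ q : ℕ, q.Prime → q ∣ M → q ∈ S) :
    ∃ (O'' : Type) (_ : CommRing O'') (_ : IsDomain O'') (_ : IsDiscreteValuationRing O'')
      (_ : IsAdicComplete (IsLocalRing.maximalIdeal O'') O'') (_ : Finite (IsLocalRing.ResidueField O''))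
      (_ : CharZero O'') (_ : Algebra O' O'') (_ : Module.Finite O' O'') (_ : IsLocalHom (algebraMap O' O'')),
      Function.Injective (algebraMap O' O'') ∧
      ∃ ρ : GaloisRepAdic O'',
        (∀ (ℓ : ℕ) (hℓ : ℓ.Prime) (hℓM : ¬ ℓ ∣ M) (hℓS : ℓ ∉ (↑S : Set ℕ)),
          ∀ A : ValuationSubring (AlgebraicClosure ℚ), A.LiesOverPrime ℓ →
            ∀ σ : AlgebraicClosure ℚ ≃ₐ[ℚ] AlgebraicClosure ℚ, A.IsFrobeniusAt σ ℓ →
              LinearMap.charpoly (ρ.ρ σ) =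
                X ^ 2 - C (algebraMap O' O'' ((iota.comp chig.rangeRestrict) (CuspForm.heckeAlgebra.T hℓ hℓM hℓS))) * X
                  + C ((ℓ : O''))) ∧
        (∀ q : ℕ, q.Prime → q ≠ lam → M.factorization q = 2 → ¬ ρ.IsUnipotentOnInertiaAt q) := by
  have hpp : lam.Prime := Fact.out
  set χ : CuspForm.heckeAlgebra M 2 (↑S : Set ℕ) →+* O' := iota.comp chig.rangeRestrict with hχ
  obtain ⟨E, hker⟩ := exists_adicTower_ker (N := M) hpp
    (fun ℓ n hℓ hℓNp => hcrux M ℓ (lam ^ n) hℓ (fun h => hℓNp (h.mul_right lam))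
      (fun h => hℓNp ((hℓ.dvd_of_dvd_pow h).mul_left M))) (IsLocalRing.maximalIdeal O') hlamO'
  obtain ⟨κ, ρ, hκ, hchar, -⟩ := E.exists_galoisRepAdic FD.frobPowerDensity hlamO' hlamS hMS χ
  refine ⟨O', inferInstance, inferInstance, inferInstance, inferInstance, inferInstance,
    inferInstance, Algebra.id O', Module.Finite.self O', ⟨fun _ h => h⟩, fun _ _ h => h, ρ, ?_, ?_⟩
  · intro ℓ hℓ hℓN hℓS A hA σ hσ
    have hℓS' : ℓ ∉ S := by simpa using hℓS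
    have hℓp : ℓ ≠ lam := fun h => hℓS' (h ▸ hlamS)
    have h1 := hchar σ (eigenSystem S χ ⟨ℓ, hℓ, hℓN⟩) (fun w hw => by
      rw [hκ.frobenius hℓ hℓp hA hσ]
      exact E.frob_rel ⟨ℓ, hℓ, hℓN⟩ hℓS' hℓp hA hσ hw)
    rw [h1, hκ.frobenius hℓ hℓp hA hσ, eigenSystem_eq S χ ⟨ℓ, hℓ, hℓN⟩ hℓS]
    rfl
  · intro q hq hqlam hfac hU
    obtain ⟨M', _, ι, Dg, A, c, hM'M, hne, hA, hc0, hD, hc⟩ := hNoInv M q lam hq hpp hqlam hfac
    have hM'S : ∀ r : ℕ, r.Prime → r ∣ M' → r ∈ S := fun r hr h => hMS r hr (h.trans hM'M)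
    obtain ⟨P, hP0, hPg⟩ := exists_newP hcrux hg S M' hM'M hne hM'S
    -- a fixed vector
    obtain ⟨w, hw, hw0, hwfix⟩ := exists_fixed_of_unipotent FD.frobPowerDensity hκ hlamS hMS E
      (eigenSystem S χ) (E.exists_mem_eigenLattice χ) ρ hchar (A.inertiaSubgroupIn ℚ)
      (fun σ hσ => hκ.inertia hq hqlam hA hσ) (fun σ hσ => hU A hA σ hσ)
    -- it is killed by `c • P(T)`
    have h1 := hker (GP S) (fun ℓ => ℓ.good hMS) P (A.inertiaSubgroupIn ℚ : Set GQ) c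
      (fun n x hx => kerForm_of_noInv hcrux hpp S hlamS hMS hM'S Dg _ c hD hc P hP0 n x hx)
      w hwfix
    rw [lift_mulVec_eigen (fun ℓ : GP S => E.T (ℓ.good hMS))
      (fun ℓ : GP S => eigenSystem S χ (ℓ.good hMS)) w (fun ℓ => hw _ ℓ.2.2)] at h1
    -- the eigenvalue of `P(T)` is nonzero
    set z : CuspForm.heckeAlgebra M 2 (↑S : Set ℕ) := FreeAlgebra.lift ℤ
      (fun ℓ : GP S => CuspForm.heckeAlgebra.T ℓ.2.1 (ℓ.good hMS).2.2 ℓ.notMem_coe) P with hz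
    have h2 : FreeAlgebra.lift ℤ (fun ℓ : GP S => eigenSystem S χ (ℓ.good hMS)) P = χ z := by
      rw [hz, map_lift]
      congr 2
      funext ℓ
      exact eigenSystem_eq S χ (ℓ.good hMS) ℓ.notMem_coe
    have h3 : chig z = FreeAlgebra.lift ℤ (fun ℓ : GP S => ModularFormClass.qCoeff g ℓ.1) P := by
      rw [hz, map_lift]
      congr 2
      funext ℓ
      exact hchig ℓ.1 ℓ.2.1 _ _
    have hfin : Module.Finite ℤ (CuspForm.heckeAlgebra M 2 (↑S : Set ℕ)) := S22.result M 2 _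
    have h4 : χ z ≠ 0 := by
      rw [hχ, RingHom.comp_apply]
      apply map_ne_zero_of_isIntegral chig.range iota
      · intro h0
        apply hPg
        rw [← h3]
        exact congrArg Subtype.val h0
      · have : IsIntegral ℤ z := Algebra.IsIntegral.isIntegral z
        exact this.map chig.toIntAlgHom
    rw [h2] at h1
    obtain ⟨i, hi⟩ := Function.ne_iff.mp hw0
    have h5 := congrFun h1 i
    rw [Pi.smul_apply, Pi.smul_apply, Pi.zero_apply, nsmul_eq_mul, smul_eq_mul] at h5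
    rcases mul_eq_zero.mp h5 with h6 | h6
    · exact hc0 (by exact_mod_cast h6)
    · rcases mul_eq_zero.mp h6 with h7 | h7
      · exact h4 h7
      · exact hi h7

end Fermat.Agent.S36.Top
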