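import Fermat.Agent.S30.OfCrux
import Fermat.Agent.S36.Top.Hat

/-!
# S36 / Top : the `p`-adic Eichler-Shimura module, with the kernel transfer property

`exists_adicTower_ker`: the tower of `S30/Build` has the additional property
(KER) if `c • P(T)` kills the `H`-invariants of all `Kum N (p ^ n)`, then `c • P(T)` kills the `H`-invariants
of `𝒪 ^ r`.
-/

set_option autoImplicit false

open CongruenceSubgroup AlgebraicCurve ModularCurve

namespace Fermat.Agent.S36.Top

open Fermat.Agent.ES Fermat.Agent.ES.Glue Fermat.Agent.ES.Coh Fermat.Agent.ES.An Fermat.Agent.S30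

theorem map_lift {ι A B : Type*} [Ring A] [Ring B] (φ : A →+* B) (f : ι → A)
    (P : FreeAlgebra ℤ ι) :
    φ (FreeAlgebra.lift ℤ f P) = FreeAlgebra.lift ℤ (fun i => φ (f i)) P := by
  have : (φ.toIntAlgHom).comp (FreeAlgebra.lift ℤ f) = FreeAlgebra.lift ℤ (fun i => φ (f i)) := by
    apply FreeAlgebra.hom_ext
    funext i
    simp
  exact DFunLike.congr_fun this P

noncomputable section

variable {N : ℕ} [NeZero N] {p : ℕ}

theorem lift_hecke_apply {ι : Type} (g : ι → D.GoodPrime N) (P : FreeAlgebra ℤ ι) (x : Tate N p)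
    (n : ℕ) :
    (FreeAlgebra.lift ℤ (fun i => Tate.hecke N p (g i)) P x).1 n
      = FreeAlgebra.lift ℤ (fun i => heckeT N (p ^ n) (g i)) P (x.1 n) := by
  induction P using FreeAlgebra.induction generalizing x with
  | grade0 r =>
    rw [AlgHom.commutes, AlgHom.commutes, Module.algebraMap_end_apply, eq_intCast,
      AddMonoid.End.intCast_apply]
    rfl
  | grade1 i =>
    rw [FreeAlgebra.lift_ι_apply, FreeAlgebra.lift_ι_apply, Tate.hecke_apply]
  | mul a b ha hb =>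
    rw [map_mul, map_mul, Module.End.mul_apply, ← hb, ← ha]
    rfl
  | add a b ha hb =>
    rw [map_add, map_add, LinearMap.add_apply, ← ha, ← hb]
    rfl

/-- **The `p`-adic Eichler-Shimura module with the kernel transfer property**, given CRUX. -/
theorem exists_adicTower_ker (hp : p.Prime)
    (hcrux : ∀ ℓ n : ℕ, ℓ.Prime → ¬ ℓ ∣ N * p → Crux N ℓ (p ^ n))
    {𝒪 : Type} [CommRing 𝒪] [Module.Flat ℤ 𝒪] (I : Ideal 𝒪) [IsAdicComplete I 𝒪]
    (hpI : (p : 𝒪) ∈ I) :
    ∃ E : D.AdicTower N p 𝒪 I, ∀ (ι : Type) (g : ι → D.GoodPrime N) (P : FreeAlgebra ℤ ι)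
      (H : Set GQ) (c : ℕ),
      (∀ (n : ℕ) (x : Kum N (p ^ n)), (∀ σ ∈ H, galKum N (p ^ n) σ x = x) →
        c • FreeAlgebra.lift ℤ (fun i => heckeT N (p ^ n) (g i)) P x = 0) →
      ∀ v : Fin E.r → 𝒪, (∀ σ ∈ H, (E.R σ).mulVec v = v) →
        c • (FreeAlgebra.lift ℤ (fun i => E.T (g i)) P).mulVec v = 0 := by
  have hp0 : p ≠ 0 := hp.ne_zero
  have hpp : 0 < p := hp.pos
  obtain ⟨r, emb, lam, hat, e, hemb, hv, hlame, hhat, Gn⟩ :=
    exists_hat_basis hp (Tate.isTate (N := N) hp0 (finite_Kum (pow_pos hpp 1)))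
      (fun j => lat (N := N) hpp (Pi.single j 1))
      (fun a ha => lat_indep hpp a (by rwa [sum_smul_lat] at ha)) I hpI
  -- entries of `hat Φ`
  have hentry : ∀ (Φ : AddMonoid.End (Tate N p)) (i j : Fin r), hat Φ i j = lam (Φ (e j)) i := by
    intro Φ i j
    rw [← hhat, hlame, Matrix.mulVec_single_one]
    rfl
  refine ⟨{
    r := r
    R := hat.toMonoidHom.comp (Tate.gal N p)
    T := fun ℓ => hat (Tate.hecke N p ℓ)
    T_R_comm := fun ℓ σ => (Tate.hecke_gal_comm ℓ σ).map hat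
    level := ?_
    unram := ?_
    es := ?_
    eigen := ?_ }, ?_⟩
  · intro n
    obtain ⟨L, hL, h⟩ := Tate.level (N := N) hp0 n (finite_Kum (pow_pos hpp n))
    refine ⟨L, hL, fun σ hσ i j => ?_⟩
    have h1 : (hat.toMonoidHom.comp (Tate.gal N p)) σ - 1 = hat (Tate.gal N p σ - 1) := by
      rw [map_sub, map_one]
      rfl
    obtain ⟨y, hy⟩ := h σ hσ (e j)
    have h2 : (Tate.gal N p σ - 1 : AddMonoid.End (Tate N p)) (e j) = p ^ n • y := hy
    rw [h1, hentry, h2, map_nsmul, Pi.smul_apply, nsmul_eq_mul, Nat.cast_pow]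
    exact Ideal.mul_mem_right _ _ (Ideal.pow_mem_pow hpI n)
  · intro q hq hqN A hA σ hσ
    show hat (Tate.gal N p σ) = 1
    rw [Tate.unram hp0 (fun n => hcrux q n hq hqN) A hA σ hσ, map_one]
  · intro ℓ hℓp A hA φ hφ
    have hℓN : ¬ ℓ.1 ∣ N * p := fun h => (ℓ.2.1.dvd_mul.mp h).elim ℓ.2.2
      fun h' => hℓp ((Nat.prime_dvd_prime_iff_eq ℓ.2.1 hp).mp h')
    have h1 := congrArg hat (Tate.es hp0 ℓ (fun n => hcrux ℓ.1 n ℓ.2.1 hℓN) A hA φ hφ)
    rw [map_add, map_sub, map_mul, map_mul, map_natCast, map_zero] at h1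
    rw [← h1]
    congr 1
    rw [Nat.cast_smul_eq_nsmul, nsmul_eq_mul, mul_one]
  · intro K _ _ S χ
    obtain ⟨c', hc'0, hc'⟩ := exists_eigen_coords_of_ringHom N S χ
    refine ⟨∑ j, c' j • Pi.single (emb j) 1, ?_, fun ℓ hℓS => ?_⟩
    · intro h0
      apply hc'0
      funext j
      have := congrFun h0 (emb j)
      simpa [Finset.sum_apply, Pi.single_apply, hemb.eq_iff] using this
    · have : Fact ℓ.1.Prime := ⟨ℓ.2.1⟩
      refine eigen_aux emb _ (matT N ℓ) ?_ c' _ (fun i => hc' ℓ.1 ℓ.2.2 hℓS i)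
      intro j
      rw [← hv, hhat, hecke_lat, ← sum_smul_lat, map_sum]
      refine Finset.sum_congr rfl fun i _ => ?_
      rw [map_zsmul, hv, Matrix.mulVec_single_one, ← Int.cast_smul_eq_zsmul 𝒪]
      rfl
  · intro ι g P H c hH v hvfix
    show c • (FreeAlgebra.lift ℤ (fun i => hat (Tate.hecke N p (g i))) P).mulVec v = 0
    set Ψ : AddMonoid.End (Tate N p) :=
      c • FreeAlgebra.lift ℤ (fun i => Tate.hecke N p (g i)) P with hΨ
    have h1 : hat Ψ = c • FreeAlgebra.lift ℤ (fun i => hat (Tate.hecke N p (g i))) P := by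
      rw [hΨ, map_nsmul, map_lift]
      rfl
    rw [← Matrix.smul_mulVec, ← h1]
    refine hat_ker I hpI lam hat e hlame hhat Gn {Φ | ∃ σ ∈ H, Φ = Tate.gal N p σ - 1} Ψ ?_ v ?_
    · intro n x hx
      apply Tate.exists_eq_smul hp0 n
      have h2 : (Ψ x).1 n = c • (FreeAlgebra.lift ℤ (fun i => Tate.hecke N p (g i)) P x).1 n := rfl
      rw [h2, lift_hecke_apply]
      apply hH n
      intro σ hσ
      obtain ⟨y, hy⟩ := hx _ ⟨σ, hσ, rfl⟩
      have h3 : (Tate.gal N p σ x - x).1 n = (p ^ n • y).1 n := congrArg (fun z : Tate N p => z.1 n) hy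
      rw [Tate.sub_apply, Tate.gal_apply, Tate.nsmul_apply, Kum.nsmul_eq_zero] at h3
      exact sub_eq_zero.mp h3
    · rintro _ ⟨σ, hσ, rfl⟩
      rw [map_sub, map_one, Matrix.sub_mulVec, Matrix.one_mulVec, sub_eq_zero]
      exact hvfix σ hσ

end

end Fermat.Agent.S36.Top
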